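import Fermat.Agent.G1.F.Kummer
import Fermat.Agent.GR.F.Normalize

/-!
# G1-F: Gauss normalisation of elements of the function field `FF1` (port of `GR/F/Normalize.lean`;
`IsTame` and its calculus are reused from GR)
-/

set_option autoImplicit false

noncomputable section

open ModularCurve

namespace Fermat.Agent.G1

open Fermat.Agent.GR

variable {Ω : Type*} [Field Ω] [Algebra ℚ Ω] [Algebra.IsAlgebraic ℚ Ω] (A : ValuationSubring Ω)

theorem isTame_uB (N d : ℕ) [NeZero d] (b : ZMod N) : IsTame A (uB Ω N d b) := by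
  have h : uB Ω N d b = coeffMap (Int.castRingHom Ω) (uB ℤ N d b) := (coeffMap_uB _ N d b).symm
  refine ⟨⟨⊥, inferInstance, fun n => ?_⟩, 1, one_ne_zero, fun n => ?_⟩
  · rw [h, coeffMap_coeff]
    exact intCast_mem _ _
  · rw [map_one, one_mul, h, coeffMap_coeff]
    exact intCast_mem _ _

theorem isTame_of_mem_adjoin (N : ℕ) {r : LaurentSeries Ω}
    (hr : r ∈ Algebra.adjoin Ω (divisorExpansionsC Ω N ∪ eisGens Ω N)) : IsTame A r := by
  induction hr using Algebra.adjoin_induction with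
  | mem x hx =>
    rcases hx with ⟨d, hne, -, rfl⟩ | ⟨d, hne, b, -, -, rfl⟩
    · exact isTame_qExpand_jqModC A d
    · exact isTame_uB A N d b
  | algebraMap c =>
    rw [algebraMap_laurentSeries_eq_single]
    exact isTame_C A c
  | add x y _ _ hx hy => exact hx.add A hy
  | mul x y _ _ hx hy => exact hx.mul A hy

/-- (F1) every nonzero function is a constant times a quotient of two primitive integral
functions. -/
theorem exists_normalized (N : ℕ) {u : LaurentSeries Ω} (hu : u ∈ FF1 Ω N) (h0 : u ≠ 0) :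
    ∃ (κ : Ω) (f g : LaurentSeries Ω), κ ≠ 0 ∧ f ∈ FF1 Ω N ∧ g ∈ FF1 Ω N ∧ IsPrim A f ∧ IsPrim A g ∧
      u = HahnSeries.C κ * (f / g) := by
  obtain ⟨r, hr, s, hs, rfl⟩ := IntermediateField.mem_adjoin_iff_div.mp hu
  have hr0 : r ≠ 0 := by
    rintro rfl
    exact h0 (zero_div _)
  have hs0 : s ≠ 0 := by
    rintro rfl
    exact h0 (div_zero _)
  obtain ⟨a, ha0, ha⟩ := exists_isPrim_of_isTame A (isTame_of_mem_adjoin A N hr) hr0
  obtain ⟨b, hb0, hb⟩ := exists_isPrim_of_isTame A (isTame_of_mem_adjoin A N hs) hs0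
  have hCa : (HahnSeries.C a : LaurentSeries Ω) ≠ 0 := by
    rw [Ne, map_eq_zero]; exact ha0
  have hCb : (HahnSeries.C b : LaurentSeries Ω) ≠ 0 := by
    rw [Ne, map_eq_zero]; exact hb0
  refine ⟨b / a, HahnSeries.C a * r, HahnSeries.C b * s, div_ne_zero hb0 ha0,
    mul_mem (C_mem_FF1 a) (IntermediateField.algebra_adjoin_le_adjoin Ω _ hr),
    mul_mem (C_mem_FF1 b) (IntermediateField.algebra_adjoin_le_adjoin Ω _ hs), ha, hb, ?_⟩
  rw [map_div₀]
  field_simp

end Fermat.Agent.G1
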