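import Fermat.Agent.GR.F.Main
import Fermat.Agent.G1.F.Normalize

/-!
# G1-F: unramifiedness and the Eichler-Shimura relation with diamonds on Kummer classes of `FF1`

Port of `GR/F/Main.lean`.  Inputs (as hypotheses): the crux lemma of G1-E (`CruxAt`), Galois stability
of Kummer functions (G1-C, `GalStable`), Hecke stability (G1-B, `HeckeStable`) and a diamond
automorphism `δ` (`IsDiamond`).

DIFFERENCE WITH GR: `δ` is not a formal operation on `q`-expansions and it does not preserve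
boundedness of `q`-expansions on all of `FF1`.  So a function is written as a quotient `r / s` of two
elements of the RING generated by the generators (`genRing`): `δ` preserves this ring, all its elements
have bounded denominators (`IsTame`), and each of `r`, `δ r` is normalised by its own constant.
No compatibility of `δ` with the reduction is needed.
-/

set_option autoImplicit false

noncomputable section

open ModularCurve IsLocalRing

namespace Fermat.Agent.G1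

open Fermat.Agent.GR

/-- (input from G1-E) the crux lemma at the place `A`, in fraction form. -/
def CruxAt (N n : ℕ) (A : ValuationSubring Qbar) : Prop :=
  ∀ a b : LaurentSeries Qbar, a ∈ FF1 Qbar N → b ∈ FF1 Qbar N → IsPrim A a → IsInt A b →
    Cong A a b → IsKummer1 (M := N) n (a / b) → KummerEquiv1 N n b a

/-- (input from G1-C) Galois conjugates of Kummer functions are Kummer functions. -/
def GalStable (N n : ℕ) : Prop :=
  ∀ (σ : Qbar ≃ₐ[ℚ] Qbar) (u : LaurentSeries Qbar),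
    IsKummer1 (M := N) n u → IsKummer1 (M := N) n (gal σ u)

/-- (input from G1-B) the multiplicative Hecke operator preserves the function field and
Kummer functions. -/
def HeckeStable (N n ℓ : ℕ) [NeZero ℓ] (ζ : Qbarˣ) (δ : FF1 Qbar N ≃ₐ[Qbar] FF1 Qbar N) : Prop :=
  (∀ u : FF1 Qbar N, heckeMulT1 ℓ ζ δ u ∈ FF1 Qbar N) ∧
    ∀ u : FF1 Qbar N, IsKummer1 (M := N) n (u : LaurentSeries Qbar) →
      IsKummer1 (M := N) n (heckeMulT1 ℓ ζ δ u)

/-! ### the ring generated by the generators -/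

/-- The `K`-algebra generated by the generators of `FF1 K N`. -/
abbrev genRing (K : Type*) [Field K] (N : ℕ) : Subalgebra K (LaurentSeries K) :=
  Algebra.adjoin K (divisorExpansionsC K N ∪ eisGens K N)

theorem genRing_le {K : Type*} [Field K] {N : ℕ} {r : LaurentSeries K} (hr : r ∈ genRing K N) :
    r ∈ FF1 K N :=
  IntermediateField.algebra_adjoin_le_adjoin K _ hr

/-- a diamond automorphism preserves the ring generated by the generators. -/
theorem IsDiamond.map_genRing {K : Type*} [Field K] {N : ℕ} {a : (ZMod N)ˣ}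
    {δ : FF1 K N ≃ₐ[K] FF1 K N} (hδ : IsDiamond K N a δ) {r : LaurentSeries K}
    (hr : r ∈ genRing K N) : ((δ ⟨r, genRing_le hr⟩ : FF1 K N) : LaurentSeries K) ∈ genRing K N := by
  induction hr using Algebra.adjoin_induction with
  | mem x hx =>
    rcases hx with hx | ⟨d, hd, b, hdN, hb, rfl⟩
    · rw [hδ.fix _ (IntermediateField.subset_adjoin K _ hx)]
      exact Algebra.subset_adjoin (Or.inl hx)
    · rw [hδ.map_uB d hdN b hb]
      exact Algebra.subset_adjoin (Or.inr ⟨d, hd, (a : ZMod N) * b, hdN,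
        fun h => hb ((Units.mul_right_eq_zero a).1 h), rfl⟩)
  | algebraMap c =>
    have h : (⟨algebraMap K (LaurentSeries K) c, genRing_le (Subalgebra.algebraMap_mem _ c)⟩ :
        FF1 K N) = algebraMap K (FF1 K N) c := rfl
    rw [h, AlgEquiv.commutes]
    exact Subalgebra.algebraMap_mem _ c
  | add x y hx hy ihx ihy =>
    have h : (⟨x + y, genRing_le (add_mem hx hy)⟩ : FF1 K N) =
        ⟨x, genRing_le hx⟩ + ⟨y, genRing_le hy⟩ := rfl
    rw [h, map_add]
    exact add_mem ihx ihy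
  | mul x y hx hy ihx ihy =>
    have h : (⟨x * y, genRing_le (mul_mem hx hy)⟩ : FF1 K N) =
        ⟨x, genRing_le hx⟩ * ⟨y, genRing_le hy⟩ := rfl
    rw [h, map_mul]
    exact mul_mem ihx ihy

/-- an automorphism of the function field over the constants preserves Kummer functions. -/
theorem isKummer1_algEquiv {K : Type*} [Field K] {N n : ℕ} (e : FF1 K N ≃ₐ[K] FF1 K N)
    (x : FF1 K N) (hx : IsKummer1 (M := N) n (x : LaurentSeries K)) :
    IsKummer1 (M := N) n ((e x : FF1 K N) : LaurentSeries K) := by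
  obtain ⟨h0, hmem, hord⟩ := hx
  have hx0 : x ≠ 0 := fun h => h0 (by rw [h]; rfl)
  refine ⟨fun h => (map_ne_zero e).2 hx0 (Subtype.ext h), (e x).2, fun v => ?_⟩
  have h := AlgebraicCurve.Place.ord_smul e (e⁻¹ • v) x
  rw [smul_inv_smul] at h
  show (n : ℤ) ∣ v.ord (e x)
  rw [h]
  exact hord _

variable {N n : ℕ} (A : ValuationSubring Qbar)

/-- every nonzero element of `genRing` is a constant times a primitive integral series. -/
theorem exists_prim_of_mem_genRing {r : LaurentSeries Qbar} (hr : r ∈ genRing Qbar N)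
    (h0 : r ≠ 0) : ∃ (c : Qbar) (f : LaurentSeries A), c ≠ 0 ∧ r = HahnSeries.C c * incl A f ∧
      red A f ≠ 0 := by
  obtain ⟨c, hc, hp⟩ := exists_isPrim_of_isTame A (isTame_of_mem_adjoin A N hr) h0
  obtain ⟨f, hf, hf0⟩ := (isPrim_iff A).mp hp
  refine ⟨c⁻¹, f, inv_ne_zero hc, ?_, hf0⟩
  rw [hf, ← mul_assoc, ← map_mul, inv_mul_cancel₀ hc, map_one, one_mul]

/-- abstract principle: two multiplicative operators which are congruent modulo `𝔪_A`, up to
constants, on the ring generated by the generators agree on Kummer classes. -/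
theorem kummerEquiv_of_cong (hn : 0 < n) (hcrux : CruxAt N n A)
    (Φ Ψ : FF1 Qbar N →*₀ LaurentSeries Qbar)
    (hΦF : ∀ u, Φ u ∈ FF1 Qbar N) (hΨF : ∀ u, Ψ u ∈ FF1 Qbar N)
    (hΦK : ∀ u : FF1 Qbar N, IsKummer1 (M := N) n (u : LaurentSeries Qbar) →
      IsKummer1 (M := N) n (Φ u))
    (hΨK : ∀ u : FF1 Qbar N, IsKummer1 (M := N) n (u : LaurentSeries Qbar) →
      IsKummer1 (M := N) n (Ψ u))
    (hcong : ∀ (r : LaurentSeries Qbar) (hr : r ∈ genRing Qbar N), r ≠ 0 →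
      ∃ (κ₁ κ₂ : Qbar) (a b : LaurentSeries A), κ₁ ≠ 0 ∧ κ₂ ≠ 0 ∧
        Φ ⟨r, genRing_le hr⟩ = HahnSeries.C κ₁ * incl A a ∧
        Ψ ⟨r, genRing_le hr⟩ = HahnSeries.C κ₂ * incl A b ∧ red A a = red A b ∧ red A a ≠ 0)
    {u : FF1 Qbar N} (hu : IsKummer1 (M := N) n (u : LaurentSeries Qbar)) :
    KummerEquiv1 N n (Ψ u) (Φ u) := by
  obtain ⟨r, hr, s, hs, hrs⟩ := IntermediateField.mem_adjoin_iff_div.mp u.2
  have hr0 : r ≠ 0 := by
    rintro rfl
    exact hu.ne_zero (by rw [hrs, zero_div])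
  have hs0 : s ≠ 0 := by
    rintro rfl
    exact hu.ne_zero (by rw [hrs, div_zero])
  have hu_eq : u = (⟨r, genRing_le hr⟩ : FF1 Qbar N) / ⟨s, genRing_le hs⟩ := Subtype.ext hrs
  obtain ⟨k₁, k₂, af, bf, hk₁, hk₂, haf, hbf, hredf, hredf0⟩ := hcong r hr hr0
  obtain ⟨m₁, m₂, ag, bg, hm₁, hm₂, hag, hbg, hredg, hredg0⟩ := hcong s hs hs0
  obtain ⟨c₁, hc₁def⟩ : ∃ c : Qbar, c = k₁ / m₁ := ⟨_, rfl⟩
  obtain ⟨c₂, hc₂def⟩ : ∃ c : Qbar, c = k₂ / m₂ := ⟨_, rfl⟩
  have hc₁ : c₁ ≠ 0 := hc₁def ▸ div_ne_zero hk₁ hm₁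
  have hc₂ : c₂ ≠ 0 := hc₂def ▸ div_ne_zero hk₂ hm₂
  have hinj := incl_injective A
  have hne : ∀ x : LaurentSeries A, red A x ≠ 0 → incl A x ≠ 0 := by
    intro x hx h0
    apply hx
    rw [show x = 0 from hinj (by rw [h0, map_zero]), map_zero]
  have hbf0 : red A bf ≠ 0 := hredf ▸ hredf0
  have hbg0 : red A bg ≠ 0 := hredg ▸ hredg0
  have hCne : ∀ c : Qbar, c ≠ 0 → (HahnSeries.C c : LaurentSeries Qbar) ≠ 0 := by
    intro c hc
    simpa using hc
  have hC₁ := hCne c₁ hc₁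
  have hC₂ := hCne c₂ hc₂
  have hCk₁ := hCne k₁ hk₁
  have hCk₂ := hCne k₂ hk₂
  have hCm₁ := hCne m₁ hm₁
  have hCm₂ := hCne m₂ hm₂
  -- membership of the integral series in the function field
  have hmemF : ∀ (κ : Qbar) (x y : LaurentSeries Qbar), κ ≠ 0 → y ∈ FF1 Qbar N →
      y = HahnSeries.C κ * x → x ∈ FF1 Qbar N := by
    intro κ x y hκ hy hxy
    have : x = HahnSeries.C κ⁻¹ * y := by
      rw [hxy, ← mul_assoc, ← map_mul, inv_mul_cancel₀ hκ, map_one, one_mul]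
    rw [this]
    exact mul_mem (C_mem_FF1 _) hy
  have hafF := hmemF k₁ _ _ hk₁ (hΦF _) haf
  have hbfF := hmemF k₂ _ _ hk₂ (hΨF _) hbf
  have hagF := hmemF m₁ _ _ hm₁ (hΦF _) hag
  have hbgF := hmemF m₂ _ _ hm₂ (hΨF _) hbg
  -- the two integral functions
  have hΦu : Φ u = HahnSeries.C c₁ * (incl A af / incl A ag) := by
    rw [hu_eq, map_div₀, haf, hag, hc₁def, map_div₀]
    have h2 := hne ag hredg0
    field_simp
  have hΨu : Ψ u = HahnSeries.C c₂ * (incl A bf / incl A bg) := by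
    rw [hu_eq, map_div₀, hbf, hbg, hc₂def, map_div₀]
    have h4 := hne bg hbg0
    field_simp
  have hquot : incl A (af * bg) / incl A (bf * ag) =
      Φ u / Ψ u * HahnSeries.C (c₂ / c₁) := by
    rw [hΦu, hΨu, map_mul, map_mul, map_div₀]
    have h1 := hne af hredf0
    have h2 := hne ag hredg0
    have h3 := hne bf hbf0
    have h4 := hne bg hbg0
    field_simp
  have hK : IsKummer1 (M := N) n (incl A (af * bg) / incl A (bf * ag)) := by
    rw [hquot]
    exact ((hΦK u hu).div (hΨK u hu)).mul (isKummer_C (div_ne_zero hc₂ hc₁))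
  have hz := hcrux (incl A (af * bg)) (incl A (bf * ag))
    (by rw [map_mul]; exact mul_mem hafF hbgF)
    (by rw [map_mul]; exact mul_mem hbfF hagF)
    ((isPrim_incl_iff A _).mpr (by rw [map_mul]; exact mul_ne_zero hredf0 hbg0))
    ((isInt_iff A).mpr ⟨_, rfl⟩)
    ((cong_incl_iff A _ _).mpr (by rw [map_mul, map_mul, hredf, hredg]))
    hK
  obtain ⟨z, hzF, hz0, hzeq⟩ := hz
  have hfin : Φ u = HahnSeries.C (c₁ / c₂) * (Ψ u * z ^ n) := by
    rw [hΦu, hΨu, map_div₀]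
    rw [map_mul, map_mul] at hzeq
    have h1 := hne af hredf0
    have h2 := hne ag hredg0
    have h3 := hne bf hbf0
    have h4 := hne bg hbg0
    field_simp
    linear_combination hzeq
  rw [hfin]
  exact (KummerEquiv1.trans ⟨z, hzF, hz0, rfl⟩
    (kummerEquiv_C_mul hn (div_ne_zero hc₁ hc₂) _))

/-- the inclusion `FF1 ⊆ Q̄((q))` as a homomorphism. -/
def valHom (N : ℕ) : FF1 Qbar N →*₀ LaurentSeries Qbar where
  toFun u := (u : LaurentSeries Qbar)
  map_zero' := rfl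
  map_one' := rfl
  map_mul' _ _ := rfl

/-- (F-unr) inertia at `A` acts trivially on Kummer classes. -/
theorem kummerEquiv_gal_of_mem_inertia (hn : 0 < n) (hcrux : CruxAt N n A)
    (hgal : GalStable N n) {σ : Qbar ≃ₐ[ℚ] Qbar} (hσ : σ ∈ A.inertiaSubgroupIn ℚ)
    {u : LaurentSeries Qbar} (hu : IsKummer1 (M := N) n u) :
    KummerEquiv1 N n u (gal σ u) := by
  obtain ⟨τ, hτ, rfl⟩ := hσ
  refine kummerEquiv_of_cong A hn hcrux
    ((gal ((A.decompositionSubgroup ℚ).subtype τ)).toMonoidWithZeroHom.comp (valHom N)) (valHom N)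
    (fun u => coeffMap_mem_FF1 _ u.2) (fun u => u.2)
    (fun u hu => hgal _ u hu) (fun u hu => hu)
    (fun r hr hr0 => ?_) (u := ⟨u, hu.mem⟩) hu
  obtain ⟨c, f, hc, hrf, hf⟩ := exists_prim_of_mem_genRing A hr hr0
  refine ⟨(A.decompositionSubgroup ℚ).subtype τ c, c, coeffMap (actA A τ) f, f,
    (map_ne_zero _).mpr hc, hc, ?_, hrf, red_actA_of_mem_inertia A τ hτ f,
    by rw [red_actA_of_mem_inertia A τ hτ f]; exact hf⟩
  show gal _ r = _
  rw [hrf, map_mul, gal_C, incl_coeffMap_actA]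
  rfl

variable {A}

/-- the multiplicative Hecke operator with diamond as a homomorphism. -/
def heckeMulT1Hom (ℓ : ℕ) [NeZero ℓ] (ζ : Qbarˣ) (hζ : IsPrimitiveRoot ζ ℓ)
    (δ : FF1 Qbar N ≃ₐ[Qbar] FF1 Qbar N) : FF1 Qbar N →*₀ LaurentSeries Qbar where
  toFun := heckeMulT1 ℓ ζ δ
  map_zero' := by simp [heckeMulT1]
  map_one' := by
    have h := normT_C ℓ ζ (1 : Qbar)
    simp only [map_one, one_pow] at h
    simp [heckeMulT1, h]
  map_mul' u v := by
    simp only [heckeMulT1, map_mul, MulMemClass.coe_mul, normT_mul ℓ ζ hζ]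
    ring

/-- `u ↦ σ(u) σ⁻¹(δ u)^ℓ` as a homomorphism. -/
def frobSumHom1 (ℓ : ℕ) (σ : Qbar ≃ₐ[ℚ] Qbar) (δ : FF1 Qbar N ≃ₐ[Qbar] FF1 Qbar N) :
    FF1 Qbar N →*₀ LaurentSeries Qbar where
  toFun u := gal σ (u : LaurentSeries Qbar) * gal σ⁻¹ ((δ u : FF1 Qbar N) : LaurentSeries Qbar) ^ ℓ
  map_zero' := by simp
  map_one' := by simp
  map_mul' u v := by
    simp only [map_mul, MulMemClass.coe_mul]
    ring

variable (A)

/-- (F-ES) the Eichler-Shimura relation `T_ℓ = σ + ℓ ⟨ℓ⟩ σ⁻¹` on Kummer classes, for `σ` a Frobenius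
element at `A` (`δ` is any diamond automorphism; for the true `T_ℓ` take `δ = ⟨ℓ⟩`). -/
theorem kummerEquiv_heckeMulT1_of_isFrobeniusAt {ℓ : ℕ} [Fact ℓ.Prime] (hn : 0 < n)
    (hA : A.LiesOverPrime ℓ) (hcrux : CruxAt N n A) (hgal : GalStable N n)
    (ζ : Qbarˣ) (hζ : IsPrimitiveRoot ζ ℓ) {a : (ZMod N)ˣ} {δ : FF1 Qbar N ≃ₐ[Qbar] FF1 Qbar N}
    (hδ : IsDiamond Qbar N a δ) (hhecke : HeckeStable N n ℓ ζ δ)
    {σ : Qbar ≃ₐ[ℚ] Qbar} (hσ : A.IsFrobeniusAt σ ℓ)
    {u : FF1 Qbar N} (hu : IsKummer1 (M := N) n (u : LaurentSeries Qbar)) :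
    KummerEquiv1 N n
      (gal σ (u : LaurentSeries Qbar) * gal σ⁻¹ ((δ u : FF1 Qbar N) : LaurentSeries Qbar) ^ ℓ)
      (heckeMulT1 ℓ ζ δ u) := by
  have := charP_residueField A hA
  obtain ⟨z, hz, hz1⟩ := exists_unit_of_pow_eq_one A hA ζ hζ.pow_eq_one
  set τ : A.decompositionSubgroup ℚ := ⟨σ, hσ.mem_decompositionSubgroup⟩ with hτ
  have hfrobinj : Function.Injective
      (coeffMap (frobenius (ResidueField A) ℓ)) := by
    intro x y hxy
    ext k
    have := congrArg (fun s => s.coeff k) hxy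
    exact (frobenius (ResidueField A) ℓ).injective this
  refine kummerEquiv_of_cong A hn hcrux (heckeMulT1Hom ℓ ζ hζ δ) (frobSumHom1 ℓ σ δ)
    hhecke.1
    (fun u => mul_mem (coeffMap_mem_FF1 _ u.2) (pow_mem (coeffMap_mem_FF1 _ (δ u).2) _))
    hhecke.2
    (fun u hu => (hgal _ _ hu).mul ((hgal _ _ (isKummer1_algEquiv δ u hu)).pow _))
    (fun r hr hr0 => ?_) hu
  -- normalise `r` and `δ r` separately
  have hδr0 : ((δ ⟨r, genRing_le hr⟩ : FF1 Qbar N) : LaurentSeries Qbar) ≠ 0 := by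
    intro h
    have h1 : δ ⟨r, genRing_le hr⟩ = 0 := Subtype.ext h
    rw [map_eq_zero_iff δ δ.injective] at h1
    exact hr0 (congrArg Subtype.val h1)
  obtain ⟨c, f, hc, hrf, hf⟩ := exists_prim_of_mem_genRing A hr hr0
  obtain ⟨c', f', hc', hrf', hf'⟩ := exists_prim_of_mem_genRing A (hδ.map_genRing hr) hδr0
  have h1 : red A (qExpand A ℓ f' * normT ℓ z f) =
      qExpand _ ℓ (red A f') * coeffMap (frobenius (ResidueField A) ℓ) (red A f) := by
    rw [map_mul, red, coeffMap_qExpand, coeffMap_normT, hz1, normT_one_char]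
  refine ⟨c' * c ^ ℓ, σ c * σ⁻¹ c' ^ ℓ, qExpand A ℓ f' * normT ℓ z f,
    coeffMap (actA A τ) f * coeffMap (actA A τ⁻¹) f' ^ ℓ,
    mul_ne_zero hc' (pow_ne_zero _ hc),
    mul_ne_zero ((map_ne_zero _).mpr hc) (pow_ne_zero _ ((map_ne_zero _).mpr hc')), ?_, ?_, ?_, ?_⟩
  · show qExpand Qbar ℓ ((δ ⟨r, genRing_le hr⟩ : FF1 Qbar N) : LaurentSeries Qbar) * normT ℓ ζ r = _
    have e1 : incl A (qExpand A ℓ f' * normT ℓ z f) =
        qExpand Qbar ℓ (incl A f') * normT ℓ ζ (incl A f) := by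
      rw [map_mul, incl, coeffMap_qExpand, coeffMap_normT, hz]
    have e2 : (HahnSeries.C (c' * c ^ ℓ) : LaurentSeries Qbar) =
        HahnSeries.C c' * HahnSeries.C (c ^ ℓ) := map_mul _ _ _
    rw [e1, e2, hrf', map_mul, qExpand_C]
    conv_lhs => rw [hrf, normT_mul ℓ ζ hζ, normT_C]
    ring
  · show gal σ r * gal σ⁻¹ ((δ ⟨r, genRing_le hr⟩ : FF1 Qbar N) : LaurentSeries Qbar) ^ ℓ = _
    have e1 : incl A (coeffMap (actA A τ) f * coeffMap (actA A τ⁻¹) f' ^ ℓ) =
        gal σ (incl A f) * gal σ⁻¹ (incl A f') ^ ℓ := by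
      rw [map_mul, map_pow, incl_coeffMap_actA, incl_coeffMap_actA]
      rfl
    have e2 : (HahnSeries.C (σ c * σ⁻¹ c' ^ ℓ) : LaurentSeries Qbar) =
        HahnSeries.C (σ c) * HahnSeries.C (σ⁻¹ c') ^ ℓ := by
      rw [map_mul, map_pow]
    rw [e1, e2, hrf', map_mul, gal_C]
    conv_lhs => rw [hrf, map_mul, gal_C]
    ring
  · have h2 : red A (coeffMap (actA A τ⁻¹) f') ^ ℓ = qExpand _ ℓ (red A f') := by
      rw [pow_char_eq_qExpand, ← red_actA_of_isFrobeniusAt A σ hσ, coeffMap_actA_actA_inv]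
    rw [h1, map_mul, map_pow, h2, red_actA_of_isFrobeniusAt A σ hσ, mul_comm]
  · rw [h1]
    refine mul_ne_zero ?_ ?_
    · exact fun h => hf' (qExpand_injective ℓ (by rw [h, map_zero]))
    · exact fun h => hf (hfrobinj (by rw [h, map_zero]))

end Fermat.Agent.G1
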